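import Mathlib
import Fermat.Agent.MUL.Orig.S23.MF
import Fermat.Agent.MUL.Orig.S23.Esymm

section MergeWrap_S23_LagrangeAlg -- from S23/LagrangeAlg.lean

/-!
# S23, step C2 (pure algebra): the Lagrange–Euler interpolation identity
-/

set_option autoImplicit false
set_option linter.unusedSectionVars false

namespace Fermat.Agent.S23

open Polynomial Finset

variable {K : Type*} [Field K] {ι : Type*} [Fintype ι] [DecidableEq ι]

/-- The polynomial `∏ i, (X - t i)`. -/
noncomputable def rootPoly (t : ι → K) : K[X] := ∏ i, (X - C (t i))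

theorem rootPoly_natDegree (t : ι → K) : (rootPoly t).natDegree = Fintype.card ι := by
  unfold rootPoly
  rw [natDegree_finsetProd_X_sub_C_eq_card]
  simp

theorem rootPoly_eval_root (t : ι → K) (i : ι) : (rootPoly t).eval (t i) = 0 := by
  unfold rootPoly
  rw [eval_prod]
  exact Finset.prod_eq_zero (mem_univ i) (by simp)

theorem rootPoly_derivative_eval (t : ι → K) (i₀ : ι) :
    (rootPoly t).derivative.eval (t i₀) = ∏ i ∈ univ.erase i₀, (t i₀ - t i) := by
  unfold rootPoly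
  rw [derivative_prod_finset, eval_finset_sum, Finset.sum_eq_single i₀]
  · simp [eval_prod]
  · intro b _ hb
    rw [eval_mul, eval_prod]
    rw [Finset.prod_eq_zero (i := i₀) (mem_erase.mpr ⟨fun h => hb h.symm, mem_univ _⟩) (by simp)]
    simp
  · intro h
    exact absurd (mem_univ i₀) h

/-- The divided difference of `rootPoly t`. -/
noncomputable def divDiff (t : ι → K) (x y : K) : K :=
  ∑ i ∈ range (Fintype.card ι + 1), (rootPoly t).coeff i * ∑ m ∈ range i, x ^ m * y ^ (i - 1 - m)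

theorem divDiff_mul (t : ι → K) (x y : K) :
    divDiff t x y * (x - y) = (rootPoly t).eval x - (rootPoly t).eval y := by
  unfold divDiff
  rw [Finset.sum_mul, eval_eq_sum_range, eval_eq_sum_range, rootPoly_natDegree,
    ← Finset.sum_sub_distrib]
  refine Finset.sum_congr rfl fun i _ => ?_
  rw [mul_assoc, geom_sum₂_mul, mul_sub]

theorem divDiff_self (t : ι → K) (x : K) :
    divDiff t x x = (rootPoly t).derivative.eval x := by
  unfold divDiff
  rw [derivative_eval, Polynomial.sum_over_range' _ _ (Fintype.card ι + 1)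
    (by rw [rootPoly_natDegree]; exact Nat.lt_succ_self _)]
  · refine Finset.sum_congr rfl fun i _ => ?_
    have : ∑ m ∈ range i, x ^ m * x ^ (i - 1 - m) = (i : K) * x ^ (i - 1) := by
      rw [Finset.sum_congr rfl (g := fun _ => x ^ (i - 1))]
      · simp
      · intro m hm
        rw [← pow_add]
        congr 1
        have := mem_range.mp hm
        omega
    rw [this, mul_assoc]
  · intro n
    simp

theorem divDiff_eq_zero (t : ι → K) (i₀ q : ι) (hq : q ≠ i₀) :
    divDiff t (t i₀) (t q) = 0 := by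
  by_cases h : t q = t i₀
  · rw [h, divDiff_self, rootPoly_derivative_eval]
    exact Finset.prod_eq_zero (i := q) (mem_erase.mpr ⟨hq, mem_univ _⟩) (by simp [h])
  · have := divDiff_mul t (t i₀) (t q)
    rw [rootPoly_eval_root, rootPoly_eval_root, sub_zero] at this
    rcases mul_eq_zero.mp this with h1 | h1
    · exact h1
    · exact absurd (sub_eq_zero.mp h1).symm h

/-- Reorganisation of the divided difference as a polynomial in `x`. -/
theorem divDiff_eq_sum (t : ι → K) (x y : K) :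
    divDiff t x y = ∑ m ∈ range (Fintype.card ι),
      (∑ i ∈ Ioc m (Fintype.card ι), (rootPoly t).coeff i * y ^ (i - 1 - m)) * x ^ m := by
  unfold divDiff
  simp_rw [Finset.mul_sum, Finset.sum_mul]
  rw [Finset.sum_sigma', Finset.sum_sigma']
  refine Finset.sum_bij' (fun a _ => ⟨a.2, a.1⟩) (fun a _ => ⟨a.2, a.1⟩) ?_ ?_ ?_ ?_ ?_
  · rintro ⟨i, m⟩ h
    simp only [mem_sigma, mem_range, mem_Ioc] at h ⊢
    omega
  · rintro ⟨m, i⟩ h
    simp only [mem_sigma, mem_range, mem_Ioc] at h ⊢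
    omega
  · rintro ⟨i, m⟩ _; rfl
  · rintro ⟨m, i⟩ _; rfl
  · rintro ⟨i, m⟩ _
    ring

/-- **Lagrange–Euler identity.** -/
theorem lagrange_euler (t u : ι → K) (i₀ : ι) :
    ∑ m ∈ range (Fintype.card ι),
      (∑ i ∈ Ioc m (Fintype.card ι), (rootPoly t).coeff i * ∑ q, u q * t q ^ (i - 1 - m)) *
        t i₀ ^ m
      = u i₀ * (rootPoly t).derivative.eval (t i₀) := by
  have h1 : ∀ q, u q * divDiff t (t i₀) (t q) = if q = i₀ then
      u i₀ * (rootPoly t).derivative.eval (t i₀) else 0 := by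
    intro q
    split_ifs with h
    · subst h; rw [divDiff_self]
    · rw [divDiff_eq_zero t i₀ q h, mul_zero]
  have h2 : ∑ q, u q * divDiff t (t i₀) (t q) = u i₀ * (rootPoly t).derivative.eval (t i₀) := by
    simp_rw [h1]
    simp
  rw [← h2]
  simp only [divDiff_eq_sum, Finset.mul_sum, Finset.sum_mul]
  rw [Finset.sum_comm (s := (univ : Finset ι))]
  refine Finset.sum_congr rfl fun m _ => ?_
  rw [Finset.sum_comm (s := (univ : Finset ι))]
  refine Finset.sum_congr rfl fun i _ => ?_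
  refine Finset.sum_congr rfl fun q _ => ?_
  ring

/-- The derivative at `x` as a polynomial expression in the coefficients. -/
theorem rootPoly_derivative_eval_eq_sum (t : ι → K) (x : K) [Nonempty ι] :
    (rootPoly t).derivative.eval x =
      ∑ m ∈ range (Fintype.card ι), ((m + 1 : ℕ) : K) * (rootPoly t).coeff (m + 1) * x ^ m := by
  rw [eval_eq_sum_range' (n := Fintype.card ι)]
  · refine Finset.sum_congr rfl fun m _ => ?_
    rw [coeff_derivative]
    push_cast
    ring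
  · have h1 := natDegree_derivative_lt (p := rootPoly t)
      (by rw [rootPoly_natDegree]; exact Fintype.card_ne_zero)
    rwa [rootPoly_natDegree] at h1

/-- Coefficients of `rootPoly` as signed elementary symmetric functions. -/
theorem rootPoly_coeff (t : ι → K) (i : ℕ) (hi : i ≤ Fintype.card ι) :
    (rootPoly t).coeff i = (-1) ^ (Fintype.card ι - i) *
      ∑ s ∈ powersetCard (Fintype.card ι - i) (univ : Finset ι), ∏ q ∈ s, t q := by
  have h := Multiset.prod_X_sub_C_coeff ((univ : Finset ι).val.map t) (k := i)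
    (by simpa using hi)
  simp only [Multiset.map_map, Multiset.card_map, Finset.card_val, Finset.card_univ] at h
  rw [Finset.esymm_map_val] at h
  rw [← h]
  rfl

end Fermat.Agent.S23
end MergeWrap_S23_LagrangeAlg

section MergeWrap_S23_Lagrange -- from S23/Lagrange.lean

/-!
# S23, step C: certificates for a cusp form on `Γ₀(N)`
-/

set_option autoImplicit false
set_option linter.unusedSectionVars false

namespace Fermat.Agent.S23

open UpperHalfPlane ModularForm MatrixGroups Filter Topology SlashInvariantForm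

variable {N : ℕ} [NeZero N] {k k₁ k₂ : ℤ}

/-- The coset space `SL(2,ℤ) / Γ₀(N)`. -/
abbrev Q (N : ℕ) : Type := 𝒮ℒ ⧸ (G0 N).subgroupOf 𝒮ℒ

noncomputable instance instFintypeQ : Fintype (Q N) := Fintype.ofFinite _

theorem quotientFunc_one {F : Type*} [FunLike F ℍ ℂ] [SlashInvariantFormClass F (G0 N) k]
    (f : F) : quotientFunc f (QuotientGroup.mk 1 : Q N) = f := by
  change (f : ℍ → ℂ) ∣[k] ((1 : 𝒮ℒ) : GL (Fin 2) ℝ)⁻¹ = f
  simp [SlashAction.slash_one]

theorem quotientFunc_congr {F G : Type*} [FunLike F ℍ ℂ] [FunLike G ℍ ℂ]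
    [SlashInvariantFormClass F (G0 N) k] [SlashInvariantFormClass G (G0 N) k]
    (f : F) (g : G) (h : (f : ℍ → ℂ) = g) (q : Q N) : quotientFunc f q = quotientFunc g q := by
  induction q using Quotient.inductionOn with
  | h r =>
    change (f : ℍ → ℂ) ∣[k] (r : GL (Fin 2) ℝ)⁻¹ = (g : ℍ → ℂ) ∣[k] (r : GL (Fin 2) ℝ)⁻¹
    rw [h]

theorem quotientFunc_mul {F G H : Type*} [FunLike F ℍ ℂ] [FunLike G ℍ ℂ] [FunLike H ℍ ℂ]
    [SlashInvariantFormClass F (G0 N) k₁] [SlashInvariantFormClass G (G0 N) k₂]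
    [SlashInvariantFormClass H (G0 N) (k₁ + k₂)]
    (f : F) (g : G) (h : H) (hh : (h : ℍ → ℂ) = f * g) (q : Q N) :
    quotientFunc h q = quotientFunc f q * quotientFunc g q := by
  induction q using Quotient.inductionOn with
  | h r =>
    change (h : ℍ → ℂ) ∣[k₁ + k₂] (r : GL (Fin 2) ℝ)⁻¹ =
      (f : ℍ → ℂ) ∣[k₁] (r : GL (Fin 2) ℝ)⁻¹ * (g : ℍ → ℂ) ∣[k₂] (r : GL (Fin 2) ℝ)⁻¹
    obtain ⟨γ, hγ⟩ := r.2
    have : ((r : GL (Fin 2) ℝ))⁻¹ = Matrix.SpecialLinearGroup.mapGL ℝ γ⁻¹ := by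
      rw [map_inv, hγ]
    rw [hh, this]
    have := ModularForm.mul_slash_SL2 k₁ k₂ γ⁻¹ (f : ℍ → ℂ) (g : ℍ → ℂ)
    simp only [ModularForm.SL_slash] at this
    exact this

theorem esymmFun_apply {F : Type*} [FunLike F ℍ ℂ] [SlashInvariantFormClass F (G0 N) k]
    (f : F) (j : ℕ) (τ : ℍ) :
    esymmFun N f j τ = ∑ s ∈ Finset.powersetCard j (Finset.univ : Finset (Q N)),
      ∏ q ∈ s, quotientFunc f q τ := by
  simp only [esymmFun, Finset.sum_apply, Finset.prod_apply]

/-- The value at `τ` of the `i`-th coefficient of `∏ (X - f_q)`. -/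
theorem rootPoly_coeff_quotientFunc {F : Type*} [FunLike F ℍ ℂ]
    [SlashInvariantFormClass F (G0 N) k] (f : F) (i : ℕ) (hi : i ≤ Fintype.card (Q N)) (τ : ℍ) :
    (rootPoly (fun q : Q N => quotientFunc f q τ)).coeff i =
      ((-1 : ℂ) ^ (Fintype.card (Q N) - i) • esymmFun N f (Fintype.card (Q N) - i)) τ := by
  classical
  rw [rootPoly_coeff _ i hi, Pi.smul_apply, esymmFun_apply, smul_eq_mul]

theorem card_Q_pos : 0 < Fintype.card (Q N) := Fintype.card_pos

/-- Certificate (ii): a cusp form on `Γ₀(N)` is a root of a monic polynomial whose lower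
coefficients are level one cusp forms. -/
theorem exists_monic (N : ℕ) [NeZero N] (k : ℤ) (f : CuspForm (G0 N) k) :
    ∃ (n : ℕ) (c : ℕ → ℍ → ℂ), 0 < n ∧ (∀ j < n, IsCF 𝒮ℒ (k * ((n : ℤ) - j)) (c j)) ∧
      (f : ℍ → ℂ) ^ n + ∑ j ∈ Finset.range n, c j * (f : ℍ → ℂ) ^ j = 0 := by
  classical
  refine ⟨Fintype.card (Q N),
    fun j => (-1 : ℂ) ^ (Fintype.card (Q N) - j) • esymmFun N f (Fintype.card (Q N) - j),
    card_Q_pos, ?_, ?_⟩
  · intro j hj
    have h := isCF_esymmFun N f (Fintype.card (Q N) - j) (by omega)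
    refine (h.cast ?_).smul _
    rw [Nat.cast_sub hj.le]
  · ext τ
    set t : Q N → ℂ := fun q => quotientFunc f q τ with ht
    have h0 : (rootPoly t).eval (f τ) = 0 := by
      have := rootPoly_eval_root t (QuotientGroup.mk 1 : Q N)
      rwa [show t (QuotientGroup.mk 1 : Q N) = f τ from
        congrFun (quotientFunc_one (N := N) f) τ] at this
    rw [Polynomial.eval_eq_sum_range, rootPoly_natDegree, Finset.sum_range_succ] at h0
    have hlead : (rootPoly t).coeff (Fintype.card (Q N)) = 1 := by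
      rw [rootPoly_coeff t _ le_rfl]
      simp
    rw [hlead, one_mul] at h0
    simp only [Pi.add_apply, Pi.pow_apply, Finset.sum_apply, Pi.mul_apply, Pi.zero_apply]
    rw [add_comm, ← h0]
    congr 1
    refine Finset.sum_congr rfl fun j hj => ?_
    rw [rootPoly_coeff_quotientFunc f j (Finset.mem_range.mp hj).le τ]

/-! ### Power sums of translates -/

theorem slash_mul_pow (γ : SL(2, ℤ)) (f θ : ℍ → ℂ) (k : ℤ) (r : ℕ) :
    (f * θ ^ r) ∣[k + 4 * r] γ = (f ∣[k] γ) * (θ ∣[(4 : ℤ)] γ) ^ r := by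
  induction r with
  | zero => simp
  | succ r ih =>
    have h1 : f * θ ^ (r + 1) = (f * θ ^ r) * θ := by rw [pow_succ, mul_assoc]
    have h2 : k + 4 * ((r + 1 : ℕ) : ℤ) = (k + 4 * r) + 4 := by push_cast; ring
    rw [h1, h2, ModularForm.mul_slash_SL2, ih, pow_succ, mul_assoc]

theorem quotientFunc_mul_pow {F G H : Type*} [FunLike F ℍ ℂ] [FunLike G ℍ ℂ] [FunLike H ℍ ℂ]
    (r : ℕ) [SlashInvariantFormClass F (G0 N) k] [SlashInvariantFormClass G (G0 N) 4]
    [SlashInvariantFormClass H (G0 N) (k + 4 * r)]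
    (f : F) (θ : G) (h : H) (hh : (h : ℍ → ℂ) = f * (θ : ℍ → ℂ) ^ r) (q : Q N) :
    quotientFunc h q = quotientFunc f q * quotientFunc θ q ^ r := by
  induction q using Quotient.inductionOn with
  | h g =>
    change (h : ℍ → ℂ) ∣[k + 4 * r] (g : GL (Fin 2) ℝ)⁻¹ =
      (f : ℍ → ℂ) ∣[k] (g : GL (Fin 2) ℝ)⁻¹ * ((θ : ℍ → ℂ) ∣[(4 : ℤ)] (g : GL (Fin 2) ℝ)⁻¹) ^ r
    obtain ⟨γ, hγ⟩ := g.2
    have : ((g : GL (Fin 2) ℝ))⁻¹ = Matrix.SpecialLinearGroup.mapGL ℝ γ⁻¹ := by
      rw [map_inv, hγ]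
    rw [hh, this]
    have := slash_mul_pow γ⁻¹ (f : ℍ → ℂ) (θ : ℍ → ℂ) k r
    simp only [ModularForm.SL_slash] at this
    exact this

/-- The power sums `∑_q f_q θ_q^r` are level one modular forms. -/
theorem isMF_powerSum (θ : ModularForm (G0 N) 4) (f : CuspForm (G0 N) k) (r : ℕ) :
    IsMF 𝒮ℒ (k + 4 * r) (∑ q : Q N, quotientFunc f q * quotientFunc θ q ^ r) := by
  obtain ⟨G, hG⟩ : IsMF (G0 N) (k + 4 * r) ((f : ℍ → ℂ) * (θ : ℍ → ℂ) ^ r) :=
    (IsCF.of f).isMF.mul ((IsMF.of θ).pow r)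
  refine ⟨ModularForm.trace 𝒮ℒ G, ?_⟩
  rw [ModularForm.coe_trace]
  refine Finset.sum_congr rfl fun q _ => ?_
  exact quotientFunc_mul_pow r f θ G hG q

/-! ### The Lagrange–Euler certificate -/

/-- The `i`-th coefficient of `∏_q (X - θ_q)` as a function on `ℍ`. -/
noncomputable def psiFun (θ : ModularForm (G0 N) 4) (i : ℕ) : ℍ → ℂ :=
  (-1 : ℂ) ^ (Fintype.card (Q N) - i) • esymmFun N θ (Fintype.card (Q N) - i)

theorem psiFun_apply (θ : ModularForm (G0 N) 4) (i : ℕ) (hi : i ≤ Fintype.card (Q N)) (τ : ℍ) :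
    psiFun θ i τ = (rootPoly (fun q : Q N => quotientFunc θ q τ)).coeff i :=
  (rootPoly_coeff_quotientFunc θ i hi τ).symm

theorem isMF_psiFun (θ : ModularForm (G0 N) 4) (i : ℕ) (hi : i ≤ Fintype.card (Q N)) :
    IsMF 𝒮ℒ (4 * ((Fintype.card (Q N) : ℤ) - i)) (psiFun θ i) := by
  have h := isMF_esymmFun N θ (Fintype.card (Q N) - i)
  refine (h.cast ?_).smul _
  rw [Nat.cast_sub hi]

/-- Certificate (i): `f * D = A` where `D ≠ 0` and `A` are polynomials in `θ` whose
coefficients are level one modular forms. -/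
theorem exists_certificate (N : ℕ) [NeZero N] (k : ℤ) (θ : ModularForm (G0 N) 4)
    (hθ1 : Tendsto θ atImInfty (𝓝 1))
    (hθ2 : ∀ q : Q N, q ≠ QuotientGroup.mk 1 →
      ∃ ℓ : ℂ, ℓ ≠ 1 ∧ Tendsto (quotientFunc θ q) atImInfty (𝓝 ℓ))
    (f : CuspForm (G0 N) k) :
    ∃ (w : ℤ) (n : ℕ) (d a : ℕ → ℍ → ℂ),
      (∀ m < n, IsMF 𝒮ℒ (w - 4 * m) (d m)) ∧ (∀ m < n, IsMF 𝒮ℒ (w + k - 4 * m) (a m)) ∧
      (∑ m ∈ Finset.range n, d m * (θ : ℍ → ℂ) ^ m ≠ 0) ∧
      (f : ℍ → ℂ) * ∑ m ∈ Finset.range n, d m * (θ : ℍ → ℂ) ^ m =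
        ∑ m ∈ Finset.range n, a m * (θ : ℍ → ℂ) ^ m := by
  classical
  set μ := Fintype.card (Q N) with hμ
  set i₀ : Q N := QuotientGroup.mk 1 with hi₀
  -- the data
  set d : ℕ → ℍ → ℂ := fun m => ((m + 1 : ℕ) : ℂ) • psiFun θ (m + 1) with hd
  set p : ℕ → ℍ → ℂ := fun r => ∑ q : Q N, quotientFunc f q * quotientFunc θ q ^ r with hp
  set a : ℕ → ℍ → ℂ := fun m => ∑ i ∈ Finset.Ioc m μ, psiFun θ i * p (i - 1 - m) with ha
  -- pointwise values
  have hDval : ∀ τ : ℍ, (∑ m ∈ Finset.range μ, d m * (θ : ℍ → ℂ) ^ m) τ =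
      ∏ q ∈ Finset.univ.erase i₀, (θ τ - quotientFunc θ q τ) := by
    intro τ
    have h1 := rootPoly_derivative_eval (fun q : Q N => quotientFunc θ q τ) i₀
    have h2 := rootPoly_derivative_eval_eq_sum (fun q : Q N => quotientFunc θ q τ)
      (quotientFunc θ i₀ τ)
    have h3 : quotientFunc θ i₀ τ = θ τ := congrFun (quotientFunc_one (N := N) θ) τ
    rw [h3] at h1 h2
    rw [← h1, h2]
    simp only [Finset.sum_apply, Pi.mul_apply, Pi.pow_apply]
    refine Finset.sum_congr rfl fun m hm => ?_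
    rw [hd]
    simp only [Pi.smul_apply, smul_eq_mul]
    rw [psiFun_apply θ (m + 1) (by have := Finset.mem_range.mp hm; omega) τ]
  refine ⟨4 * ((μ : ℤ) - 1), μ, d, a, ?_, ?_, ?_, ?_⟩
  · intro m hm
    have h := isMF_psiFun θ (m + 1) (by omega)
    exact (h.cast (by push_cast; ring)).smul _
  · intro m hm
    refine IsMF.sum _ _ fun i hi => ?_
    have hi' := Finset.mem_Ioc.mp hi
    have h1 := isMF_psiFun θ i hi'.2
    have h2 := isMF_powerSum θ f (i - 1 - m)
    refine (h1.mul h2).cast ?_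
    have : ((i - 1 - m : ℕ) : ℤ) = (i : ℤ) - 1 - m := by omega
    rw [this]
    ring
  · -- `D ≠ 0` by looking at the value at `i∞`
    intro hD
    choose! ℓ hℓ1 hℓ2 using hθ2
    have hlim : Tendsto (fun τ : ℍ => ∏ q ∈ Finset.univ.erase i₀, (θ τ - quotientFunc θ q τ))
        atImInfty (𝓝 (∏ q ∈ Finset.univ.erase i₀, (1 - ℓ q))) := by
      refine tendsto_finsetProd _ fun q hq => ?_
      exact hθ1.sub (hℓ2 q (Finset.ne_of_mem_erase hq))
    have hzero : (fun τ : ℍ => ∏ q ∈ Finset.univ.erase i₀, (θ τ - quotientFunc θ q τ)) =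
        fun _ => 0 := by
      funext τ
      rw [← hDval τ, hD]
      rfl
    rw [hzero] at hlim
    have := tendsto_nhds_unique hlim tendsto_const_nhds
    rw [Finset.prod_eq_zero_iff] at this
    obtain ⟨q, hq, h0⟩ := this
    exact hℓ1 q (Finset.ne_of_mem_erase hq) (sub_eq_zero.mp h0).symm
  · ext τ
    have hL := lagrange_euler (fun q : Q N => quotientFunc θ q τ)
      (fun q : Q N => quotientFunc f q τ) i₀
    have h3 : quotientFunc θ i₀ τ = θ τ := congrFun (quotientFunc_one (N := N) θ) τ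
    have h4 : quotientFunc f i₀ τ = f τ := congrFun (quotientFunc_one (N := N) f) τ
    have h5 := rootPoly_derivative_eval (fun q : Q N => quotientFunc θ q τ) i₀
    simp only [h3, h4] at hL h5
    rw [Pi.mul_apply, hDval τ, ← h5, ← hL]
    simp only [Finset.sum_apply, Pi.mul_apply, Pi.pow_apply]
    refine Finset.sum_congr rfl fun m hm => ?_
    congr 1
    rw [ha]
    simp only [Finset.sum_apply, Pi.mul_apply]
    refine Finset.sum_congr rfl fun i hi => ?_
    rw [psiFun_apply θ i (Finset.mem_Ioc.mp hi).2 τ, hp]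
    simp only [Finset.sum_apply, Pi.mul_apply, Pi.pow_apply]

end Fermat.Agent.S23
end MergeWrap_S23_Lagrange
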